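/-
Programme T1B (row 38 via S44), E-side, generic leaves (helper9): `p`-th roots of unity and Lagrange
resolvents in a valued field.  Mathlib only.

`K` a field, `v : Valuation K Γ₀`, `p` prime, `ζ₀` a primitive `p`-th root of unity of `K`.

* `val_eq_one_of_pow_eq_one`   : `x ^ n = 1`, `n ≠ 0` ⟹ `v x = 1`;
* `closest_root` (R1)          : `∀ t, ∃ k < p, v (t - ζ₀ ^ k) * v p ≤ v (t ^ p - 1)`;
* `val_one_sub_pow_eq`         : `v (1 - ζ₀ ^ k) = v (1 - ζ₀)` for `p ∤ k`;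
* `val_one_sub_pow_card`       : `v (1 - ζ₀) ^ (p - 1) = v p`;
* `val_sub_pow_eq` (R1')       : two distinct `p`-th roots of unity: `v (ζ - ζ') ^ (p - 1) = v p`;
* `ePow ζ k := ζ ^ k.val` (`k : ZMod p`) with `ePow_add`, `ePow_neg`, `ePow_mul`;
* `val_resolvent` (R2)         : `v (∑ k, ζ ^ ((p - k.val) % p) * F k) = v A * v p` if
                                 `v (F k - A * ζ ^ k.val) < v A * v p` for all `k`;
* `resolvent_equivariant`      : `σ R = ζ ^ c.val * R` if `σ ζ = ζ ^ χ.val`, `σ (F k) = F (c + χ * k)`, `χ ≠ 0`.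
-/
import Mathlib

set_option autoImplicit false

namespace Fermat.Agent.T1B.ESide9

open Finset Polynomial

variable {K : Type*} [Field K] {Γ₀ : Type*} [LinearOrderedCommGroupWithZero Γ₀]
  (v : Valuation K Γ₀)

/-! ### Roots of unity have valuation one -/

theorem val_eq_one_of_pow_eq_one {x : K} {n : ℕ} (hn : n ≠ 0) (hx : x ^ n = 1) : v x = 1 := by
  have h1 : v x ^ n = 1 := by rw [← map_pow, hx, map_one]
  rcases lt_trichotomy (v x) 1 with h | h | h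
  · exact absurd h1 (ne_of_lt (pow_lt_one₀ zero_le h hn))
  · exact h
  · exact absurd h1 (ne_of_gt (one_lt_pow₀ h hn))

theorem val_pow_root {x : K} {n : ℕ} (hn : n ≠ 0) (hx : x ^ n = 1) (k : ℕ) : v (x ^ k) = 1 := by
  rw [map_pow, val_eq_one_of_pow_eq_one v hn hx, one_pow]

theorem val_geom_sum_le {x : K} {n : ℕ} (hn : n ≠ 0) (hx : x ^ n = 1) (k : ℕ) :
    v (∑ i ∈ range k, x ^ i) ≤ 1 :=
  v.map_sum_le fun i _ => (val_pow_root v hn hx i).le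

/-- `v (1 - x ^ k) ≤ v (1 - x)` for a root of unity `x`. -/
theorem val_one_sub_pow_le {x : K} {n : ℕ} (hn : n ≠ 0) (hx : x ^ n = 1) (k : ℕ) :
    v (1 - x ^ k) ≤ v (1 - x) := by
  have h : 1 - x ^ k = (∑ i ∈ range k, x ^ i) * (1 - x) := (geom_sum_mul_neg x k).symm
  rw [h, map_mul]
  exact mul_le_of_le_one_left' (val_geom_sum_le v hn hx k)

variable {p : ℕ} [hp : Fact p.Prime] {ζ₀ : K}

omit hp in
theorem pow_mod_of_pow_eq_one {ζ : K} (hζ : ζ ^ p = 1) (n : ℕ) : ζ ^ (n % p) = ζ ^ n := by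
  conv_rhs => rw [← Nat.div_add_mod n p, pow_add, pow_mul, hζ, one_pow, one_mul]

/-! ### The differences of `p`-th roots of unity -/

/-- `v (1 - ζ₀ ^ k) = v (1 - ζ₀)` for `p ∤ k`. -/
theorem val_one_sub_pow_eq (hζ : IsPrimitiveRoot ζ₀ p) {k : ℕ} (hk : ¬ p ∣ k) :
    v (1 - ζ₀ ^ k) = v (1 - ζ₀) := by
  have hp0 : p ≠ 0 := hp.out.ne_zero
  refine le_antisymm (val_one_sub_pow_le v hp0 hζ.pow_eq_one k) ?_
  -- `ζ₀ = (ζ₀ ^ k) ^ m` with `k * m ≡ 1 mod p`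
  have hcop : Nat.Coprime k p := (Nat.Coprime.symm ((Nat.Prime.coprime_iff_not_dvd hp.out).2 hk))
  obtain ⟨m, -, hm⟩ := Nat.exists_mul_mod_eq_one_of_coprime hcop hp.out.one_lt
  have h1 : (ζ₀ ^ k) ^ m = ζ₀ := by
    rw [← pow_mul, ← pow_mod_of_pow_eq_one hζ.pow_eq_one, hm, pow_one]
  have h2 : (ζ₀ ^ k) ^ p = 1 := by rw [← pow_mul, mul_comm, pow_mul, hζ.pow_eq_one, one_pow]
  calc v (1 - ζ₀) = v (1 - (ζ₀ ^ k) ^ m) := by rw [h1]
    _ ≤ v (1 - ζ₀ ^ k) := val_one_sub_pow_le v hp0 h2 m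

/-- `v (1 - ζ₀) ^ (p - 1) = v p`. -/
theorem val_one_sub_pow_card (hζ : IsPrimitiveRoot ζ₀ p) : v (1 - ζ₀) ^ (p - 1) = v (p : K) := by
  obtain ⟨n, hn⟩ : ∃ n, p = n + 1 := ⟨p - 1, (Nat.succ_pred_eq_of_pos hp.out.pos).symm⟩
  have hζ' : IsPrimitiveRoot ζ₀ (n + 1) := hn ▸ hζ
  have h := hζ'.prod_one_sub_pow_eq_order
  have h2 : v (∏ k ∈ range n, (1 - ζ₀ ^ (k + 1))) = v (1 - ζ₀) ^ n := by
    rw [map_prod]
    have : ∀ k ∈ range n, v (1 - ζ₀ ^ (k + 1)) = v (1 - ζ₀) := by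
      intro k hk
      refine val_one_sub_pow_eq v hζ ?_
      intro hdvd
      have hk' : k + 1 < p := by rw [hn]; exact Nat.succ_lt_succ (mem_range.1 hk)
      exact absurd (Nat.le_of_dvd (Nat.succ_pos k) hdvd) (not_le.2 hk')
    rw [prod_congr rfl this, prod_const, card_range]
  rw [h] at h2
  have hcast : ((n : K) + 1) = (p : K) := by rw [hn]; push_cast; rfl
  rw [hcast] at h2
  rw [h2, hn, Nat.add_sub_cancel]

/-- (R1') Two distinct `p`-th roots of unity: `v (ζ - ζ') ^ (p - 1) = v p`. -/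
theorem val_sub_pow_eq (hζ : IsPrimitiveRoot ζ₀ p) {ζ ζ' : K} (h : ζ ^ p = 1) (h' : ζ' ^ p = 1)
    (hne : ζ ≠ ζ') : v (ζ - ζ') ^ (p - 1) = v (p : K) := by
  have hp0 : p ≠ 0 := hp.out.ne_zero
  have : NeZero p := ⟨hp0⟩
  obtain ⟨i, hi, rfl⟩ := hζ.eq_pow_of_pow_eq_one h
  obtain ⟨j, hj, rfl⟩ := hζ.eq_pow_of_pow_eq_one h'
  have hij : i ≠ j := fun e => hne (by rw [e])
  -- wlog `j < i`
  have key : ∀ a b : ℕ, a < p → b < a → v (ζ₀ ^ a - ζ₀ ^ b) = v (1 - ζ₀) := by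
    intro a b ha hb
    have h1 : ζ₀ ^ a - ζ₀ ^ b = -(ζ₀ ^ b * (1 - ζ₀ ^ (a - b))) := by
      rw [mul_sub, mul_one, ← pow_add, Nat.add_sub_cancel' hb.le]
      ring
    rw [h1, Valuation.map_neg, map_mul, val_pow_root v hp0 hζ.pow_eq_one, one_mul]
    refine val_one_sub_pow_eq v hζ ?_
    intro hdvd
    have hlt : a - b < p := lt_of_le_of_lt (Nat.sub_le a b) ha
    exact absurd (Nat.le_of_dvd (Nat.sub_pos_of_lt hb) hdvd) (not_le.2 hlt)
  rcases lt_or_gt_of_ne hij with hlt | hlt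
  · rw [← Valuation.map_neg, neg_sub, key j i hj hlt, val_one_sub_pow_card v hζ]
  · rw [key i j hi hlt, val_one_sub_pow_card v hζ]

/-! ### (R1) the closest root -/

theorem pow_sub_one_eq_prod (hζ : IsPrimitiveRoot ζ₀ p) (t : K) :
    t ^ p - 1 = ∏ k ∈ range p, (t - ζ₀ ^ k) := by
  have h := X_pow_sub_C_eq_prod hζ hp.out.pos (one_pow p : (1 : K) ^ p = 1)
  have h2 := congrArg (Polynomial.eval t) h
  simp only [eval_sub, eval_pow, eval_X, eval_C, eval_prod, mul_one] at h2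
  exact h2

/-- If `1` is a closest `p`-th root of unity to `t`, then `v (t - 1) * v p ≤ v (t ^ p - 1)`. -/
theorem closest_root_one (hζ : IsPrimitiveRoot ζ₀ p) (t : K)
    (hmin : ∀ k : ℕ, v (t - 1) ≤ v (t - ζ₀ ^ k)) : v (t - 1) * v (p : K) ≤ v (t ^ p - 1) := by
  obtain ⟨n, hn⟩ : ∃ n, p = n + 1 := ⟨p - 1, (Nat.succ_pred_eq_of_pos hp.out.pos).symm⟩
  have hζ' : IsPrimitiveRoot ζ₀ (n + 1) := hn ▸ hζ
  have hprod : v (∏ k ∈ range n, (1 - ζ₀ ^ (k + 1))) = v (p : K) := by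
    rw [hζ'.prod_one_sub_pow_eq_order, hn]
    push_cast
    rfl
  rw [pow_sub_one_eq_prod hζ t, hn, prod_range_succ', pow_zero, map_mul, mul_comm (v _) (v (t - 1)),
    ← hn, ← hprod, map_prod, map_prod]
  refine mul_le_mul_right (prod_le_prod' fun k _ => ?_) _
  have h1 : 1 - ζ₀ ^ (k + 1) = (t - ζ₀ ^ (k + 1)) - (t - 1) := by ring
  rw [h1]
  exact (v.map_sub _ _).trans (max_le le_rfl (hmin (k + 1)))

/-- **(R1) Closest root.** -/
theorem closest_root (hζ : IsPrimitiveRoot ζ₀ p) (t : K) :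
    ∃ k : ℕ, k < p ∧ v (t - ζ₀ ^ k) * v (p : K) ≤ v (t ^ p - 1) := by
  have hp0 : p ≠ 0 := hp.out.ne_zero
  obtain ⟨k₀, hk₀, hmin⟩ := exists_min_image (range p) (fun k => v (t - ζ₀ ^ k))
    ⟨0, mem_range.2 hp.out.pos⟩
  refine ⟨k₀, mem_range.1 hk₀, ?_⟩
  set ξ := ζ₀ ^ k₀ with hξ
  have hξp : ξ ^ p = 1 := by rw [hξ, ← pow_mul, mul_comm, pow_mul, hζ.pow_eq_one, one_pow]
  have hξv : v ξ = 1 := val_eq_one_of_pow_eq_one v hp0 hξp
  have hξ0 : ξ ≠ 0 := by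
    intro h0
    rw [h0, map_zero] at hξv
    exact zero_ne_one hξv
  have hξinv : v ξ⁻¹ = 1 := by rw [map_inv₀, hξv, inv_one]
  -- translate to `t' = t / ξ`
  have hmin' : ∀ k : ℕ, v (t * ξ⁻¹ - 1) ≤ v (t * ξ⁻¹ - ζ₀ ^ k) := by
    intro k
    have h1 : t * ξ⁻¹ - 1 = ξ⁻¹ * (t - ζ₀ ^ k₀) := by
      rw [mul_sub, ← hξ, inv_mul_cancel₀ hξ0, mul_comm]
    have h2 : t * ξ⁻¹ - ζ₀ ^ k = ξ⁻¹ * (t - ζ₀ ^ ((k₀ + k) % p)) := by
      rw [pow_mod_of_pow_eq_one hζ.pow_eq_one, pow_add, ← hξ, mul_sub, ← mul_assoc,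
        inv_mul_cancel₀ hξ0, one_mul, mul_comm]
    rw [h1, h2, map_mul, map_mul, hξinv, one_mul, one_mul]
    exact hmin _ (mem_range.2 (Nat.mod_lt _ hp.out.pos))
  have h3 := closest_root_one v hζ (t * ξ⁻¹) hmin'
  have h4 : t * ξ⁻¹ - 1 = ξ⁻¹ * (t - ζ₀ ^ k₀) := by
    rw [mul_sub, ← hξ, inv_mul_cancel₀ hξ0, mul_comm]
  have h5 : (t * ξ⁻¹) ^ p - 1 = t ^ p - 1 := by
    rw [mul_pow, inv_pow, hξp, inv_one, mul_one]
  rw [h4, h5, map_mul, hξinv, one_mul] at h3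
  exact h3

/-! ### Characters of `ZMod p` -/

/-- `k ↦ ζ ^ k.val` on `ZMod p`. -/
def ePow (ζ : K) (k : ZMod p) : K := ζ ^ k.val

theorem ePow_add {ζ : K} (hζ : ζ ^ p = 1) (k l : ZMod p) :
    ePow ζ (k + l) = ePow ζ k * ePow ζ l := by
  unfold ePow
  rw [ZMod.val_add, pow_mod_of_pow_eq_one hζ, pow_add]

theorem ePow_zero (ζ : K) : ePow ζ (0 : ZMod p) = 1 := by
  unfold ePow
  rw [ZMod.val_zero, pow_zero]

theorem ePow_mul_neg {ζ : K} (hζ : ζ ^ p = 1) (k : ZMod p) : ePow ζ k * ePow ζ (-k) = 1 := by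
  rw [← ePow_add hζ, add_neg_cancel, ePow_zero]

theorem ePow_neg {ζ : K} (_hζ : ζ ^ p = 1) (k : ZMod p) :
    ePow ζ (-k) = ζ ^ ((p - k.val) % p) := by
  unfold ePow
  rw [ZMod.neg_val']

theorem ePow_mul {ζ : K} (hζ : ζ ^ p = 1) (χ k : ZMod p) :
    ePow ζ (χ * k) = (ζ ^ χ.val) ^ k.val := by
  unfold ePow
  rw [ZMod.val_mul, pow_mod_of_pow_eq_one hζ, pow_mul]

theorem val_ePow {ζ : K} (hζ : ζ ^ p = 1) (k : ZMod p) : v (ePow ζ k) = 1 :=
  val_pow_root v hp.out.ne_zero hζ _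

/-! ### (R2) the abstract resolvent -/

/-- The resolvent `∑ k, ζ ^ (-k) * F k`. -/
def resolvent (ζ : K) (F : ZMod p → K) : K := ∑ k : ZMod p, ζ ^ ((p - k.val) % p) * F k

theorem resolvent_eq {ζ : K} (hζ : ζ ^ p = 1) (F : ZMod p → K) :
    resolvent ζ F = ∑ k : ZMod p, ePow ζ (-k) * F k := by
  unfold resolvent
  exact Finset.sum_congr rfl fun k _ => by rw [ePow_neg hζ]

/-- **(R2) Valuation of the resolvent.** -/
theorem val_resolvent {ζ : K} (hζ : ζ ^ p = 1) (F : ZMod p → K) (A : K)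
    (h : ∀ k : ZMod p, v (F k - A * ζ ^ k.val) < v A * v (p : K)) :
    v (∑ k : ZMod p, ζ ^ ((p - k.val) % p) * F k) = v A * v (p : K) := by
  have hg : v A * v (p : K) ≠ 0 := by
    intro h0
    have := h 0
    rw [h0] at this
    exact not_lt_zero this
  have hsum : (∑ k : ZMod p, ζ ^ ((p - k.val) % p) * F k)
      = (∑ k : ZMod p, ePow ζ (-k) * (F k - A * ζ ^ k.val)) + (p : K) * A := by
    have h1 : ∀ k : ZMod p, ζ ^ ((p - k.val) % p) * F k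
        = ePow ζ (-k) * (F k - A * ζ ^ k.val) + A := by
      intro k
      have h2 : ePow ζ (-k) * ζ ^ k.val = 1 := by
        have := ePow_mul_neg hζ k
        rw [mul_comm] at this
        exact this
      rw [← ePow_neg hζ, mul_sub, mul_comm A, ← mul_assoc, h2, one_mul]
      ring
    rw [Finset.sum_congr rfl fun k _ => h1 k, Finset.sum_add_distrib, Finset.sum_const,
      Finset.card_univ, ZMod.card, nsmul_eq_mul]
  have hlt : v (∑ k : ZMod p, ePow ζ (-k) * (F k - A * ζ ^ k.val)) < v ((p : K) * A) := by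
    rw [map_mul, mul_comm (v (p : K))]
    refine v.map_sum_lt hg fun k _ => ?_
    rw [map_mul, val_ePow v hζ, one_mul]
    exact h k
  rw [hsum, Valuation.map_add_eq_of_lt_right v hlt, map_mul, mul_comm]

/-- **Equivariance of the resolvent.** -/
theorem resolvent_equivariant {ζ : K} (hζ : ζ ^ p = 1) (F : ZMod p → K) (σ : K →+* K)
    (χ c : ZMod p) (hχ : χ ≠ 0) (hσζ : σ ζ = ζ ^ χ.val)
    (hσF : ∀ k : ZMod p, σ (F k) = F (c + χ * k)) :
    σ (∑ k : ZMod p, ζ ^ ((p - k.val) % p) * F k)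
      = ζ ^ c.val * ∑ k : ZMod p, ζ ^ ((p - k.val) % p) * F k := by
  have hR : (∑ k : ZMod p, ζ ^ ((p - k.val) % p) * F k) = ∑ k : ZMod p, ePow ζ (-k) * F k :=
    Finset.sum_congr rfl fun k _ => by rw [ePow_neg hζ]
  rw [hR, map_sum, Finset.mul_sum]
  -- reindex by `j = c + χ * k`
  let e : ZMod p ≃ ZMod p := (Equiv.mulLeft₀ χ hχ).trans (Equiv.addLeft c)
  have he : ∀ k, e k = c + χ * k := fun k => rfl
  rw [← Equiv.sum_comp e (fun j => ζ ^ c.val * (ePow ζ (-j) * F j))]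
  refine Finset.sum_congr rfl fun k _ => ?_
  rw [map_mul, hσF, he]
  have h1 : σ (ePow ζ (-k)) = ePow ζ (χ * -k) := by
    rw [ePow_mul hζ]
    unfold ePow
    rw [map_pow, hσζ]
  have h2 : ζ ^ c.val * ePow ζ (-(c + χ * k)) = ePow ζ (χ * -k) := by
    have : ζ ^ c.val = ePow ζ c := rfl
    rw [this, ← ePow_add hζ]
    congr 1
    ring
  rw [h1, ← mul_assoc, h2]

end Fermat.Agent.T1B.ESide9
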